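import Mathlib

set_option autoImplicit false

namespace Fermat.Agent.S49.H79

open Module

theorem exists_common_eigenvector_aux {K V : Type*} [Field K] [IsAlgClosed K] [AddCommGroup V]
    [Module K V] [FiniteDimensional K V] (𝒮 : Set (Module.End K V))
    (hcomm : ∀ s ∈ 𝒮, ∀ t ∈ 𝒮, Commute s t) :
    ∀ (n : ℕ) (W : Submodule K V), Module.finrank K W = n → W ≠ ⊥ →
      (∀ s ∈ 𝒮, ∀ x ∈ W, s x ∈ W) →
      ∃ f ∈ W, f ≠ 0 ∧ ∀ s ∈ 𝒮, ∃ c : K, s f = c • f := by
  intro n
  induction n using Nat.strong_induction_on with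
  | _ n ih =>
    intro W hn hW hstab
    by_cases hscal : ∀ s ∈ 𝒮, ∃ c : K, ∀ x ∈ W, s x = c • x
    · obtain ⟨f, hfW, hf0⟩ := (Submodule.ne_bot_iff W).mp hW
      exact ⟨f, hfW, hf0, fun s hs => (hscal s hs).imp fun c hc => hc f hfW⟩
    · push Not at hscal
      obtain ⟨s, hs, hns⟩ := hscal
      have hsW : ∀ x ∈ W, s x ∈ W := hstab s hs
      let sW : Module.End K W := s.restrict hsW
      have : Nontrivial W := Submodule.nontrivial_iff_ne_bot.mpr hW
      obtain ⟨c, hc⟩ := Module.End.exists_eigenvalue sW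
      obtain ⟨v, hv⟩ := hc.exists_hasEigenvector
      let E : Submodule K V := W ⊓ LinearMap.ker (s - c • (1 : Module.End K V))
      have hEmem : ∀ x, x ∈ E ↔ x ∈ W ∧ s x = c • x := by
        intro x
        simp [E, sub_eq_zero]
      have hvE : (v : V) ∈ E := by
        rw [hEmem]
        refine ⟨v.2, ?_⟩
        have h1 := hv.apply_eq_smul
        have h2 := congrArg Subtype.val h1
        simpa [sW] using h2
      have hE_ne : E ≠ ⊥ := by
        intro h
        have h1 : (v : V) ∈ (⊥ : Submodule K V) := h ▸ hvE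
        rw [Submodule.mem_bot] at h1
        exact hv.2 (Subtype.ext h1)
      obtain ⟨x, hxW, hx⟩ := hns c
      have hE_lt : E < W := by
        refine lt_of_le_of_ne inf_le_left ?_
        intro h
        have h1 : x ∈ E := h ▸ hxW
        exact hx ((hEmem x).mp h1).2
      have hE_stab : ∀ s' ∈ 𝒮, ∀ y ∈ E, s' y ∈ E := by
        intro s' hs' y hy
        rw [hEmem] at hy ⊢
        refine ⟨hstab s' hs' y hy.1, ?_⟩
        have h1 := hcomm s hs s' hs'
        have h3 : s (s' y) = s' (s y) := by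
          have h2 := congrArg (fun g : Module.End K V => g y) h1.eq
          simpa using h2
        rw [h3, hy.2, map_smul]
      have hlt : Module.finrank K E < n := hn ▸ Submodule.finrank_lt_finrank_of_lt hE_lt
      obtain ⟨f, hfE, hf0, hf⟩ := ih _ hlt E rfl hE_ne hE_stab
      exact ⟨f, hE_lt.le hfE, hf0, hf⟩

theorem exists_common_eigenvector {K V : Type*} [Field K] [IsAlgClosed K] [AddCommGroup V]
    [Module K V] [FiniteDimensional K V] (𝒮 : Set (Module.End K V))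
    (hcomm : ∀ s ∈ 𝒮, ∀ t ∈ 𝒮, Commute s t) (W : Submodule K V) (hW : W ≠ ⊥)
    (hstab : ∀ s ∈ 𝒮, ∀ x ∈ W, s x ∈ W) :
    ∃ f ∈ W, f ≠ 0 ∧ ∀ s ∈ 𝒮, ∃ c : K, s f = c • f :=
  exists_common_eigenvector_aux 𝒮 hcomm _ W rfl hW hstab


theorem abstract_lift
    {V : Type*} [AddCommGroup V] [Module ℂ V]
    {A : Type*} [CommRing A] (φ : A →+* Module.End ℂ V) (hφ : Function.Injective φ)
    (L : Submodule ℤ V) (hLfg : L.FG) (hLspan : Submodule.span ℂ (L : Set V) = ⊤)
    (hLstab : ∀ (t : A) (x : V), x ∈ L → φ t x ∈ L)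
    (I : Ideal A) (hI : I ≠ ⊤) :
    ∃ (f : V) (θ : A →+* integralClosure ℤ ℂ) (𝔪' : Ideal (integralClosure ℤ ℂ)),
      f ≠ 0 ∧ (∀ t : A, φ t f = ((θ t : integralClosure ℤ ℂ) : ℂ) • f) ∧ 𝔪'.IsMaximal ∧
        ∀ t ∈ I, θ t ∈ 𝔪' := by
  classical
  -- finite-dimensionality
  have hfin : FiniteDimensional ℂ V := by
    obtain ⟨s, hs⟩ := hLfg
    refine Module.finite_def.mpr ⟨s, ?_⟩
    rw [← hLspan, ← hs, Submodule.span_span_of_tower]
  -- a maximal ideal above I
  obtain ⟨𝔪, h𝔪, hI𝔪⟩ := Ideal.exists_le_maximal I hI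
  have h𝔪prime : 𝔪.IsPrime := h𝔪.isPrime
  -- minimal rank
  have hex : ∃ n, ∃ t : A, t ∉ 𝔪 ∧ Module.finrank ℂ (LinearMap.range (φ t)) = n :=
    ⟨_, 1, (Ideal.ne_top_iff_one 𝔪).mp h𝔪.ne_top, rfl⟩
  obtain ⟨t₀, ht₀, hn₀⟩ := Nat.find_spec hex
  have hmin : ∀ t : A, t ∉ 𝔪 → Nat.find hex ≤ Module.finrank ℂ (LinearMap.range (φ t)) :=
    fun t ht => Nat.find_min' hex ⟨t, ht, rfl⟩
  set W : Submodule ℂ V := LinearMap.range (φ t₀) with hWdef
  have hW : W ≠ ⊥ := by
    intro h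
    have h1 : φ t₀ = 0 := LinearMap.range_eq_bot.mp h
    have h2 : t₀ = 0 := hφ (by rw [h1, map_zero])
    exact ht₀ (h2 ▸ 𝔪.zero_mem)
  have hcommφ : ∀ s t : A, ∀ x : V, φ s (φ t x) = φ t (φ s x) := by
    intro s t x
    have h1 : φ (s * t) = φ (t * s) := by rw [mul_comm]
    rw [map_mul, map_mul] at h1
    exact congrArg (fun g : Module.End ℂ V => g x) h1
  have hcomm : ∀ s ∈ Set.range φ, ∀ t ∈ Set.range φ, Commute s t := by
    rintro _ ⟨s, rfl⟩ _ ⟨t, rfl⟩
    show φ s * φ t = φ t * φ s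
    rw [← map_mul, ← map_mul, mul_comm]
  have hstab : ∀ s ∈ Set.range φ, ∀ x ∈ W, s x ∈ W := by
    rintro _ ⟨s, rfl⟩ x ⟨y, rfl⟩
    exact ⟨φ s y, (hcommφ s t₀ y).symm⟩
  obtain ⟨f, hfW, hf0, hf⟩ := exists_common_eigenvector (Set.range φ) hcomm W hW hstab
  have hf' : ∀ t : A, ∃ c : ℂ, φ t f = c • f := fun t => hf (φ t) ⟨t, rfl⟩
  choose c hc using hf'
  have hinj : Function.Injective fun a : ℂ => a • f := smul_left_injective ℂ hf0
  let θ₀ : A →+* ℂ :=
    { toFun := c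
      map_one' := hinj (by simp only [← hc, map_one, one_smul, Module.End.one_apply])
      map_mul' := fun s t => hinj (by
        simp only [← hc, map_mul, Module.End.mul_apply, mul_smul]
        rw [hc t, map_smul, hc s, smul_comm])
      map_zero' := hinj (by simp only [← hc, map_zero, zero_smul, LinearMap.zero_apply])
      map_add' := fun s t => hinj (by
        simp only [← hc, map_add, LinearMap.add_apply, add_smul]) }
  have hθ₀ : ∀ t : A, φ t f = θ₀ t • f := hc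
  -- kernel of θ₀ is inside 𝔪
  have hker : ∀ t : A, θ₀ t = 0 → t ∈ 𝔪 := by
    intro t ht
    by_contra htm
    have htt₀ : t * t₀ ∉ 𝔪 := fun h => (h𝔪prime.mem_or_mem h).elim htm ht₀
    have hle : LinearMap.range (φ (t * t₀)) ≤ W := by
      rintro _ ⟨y, rfl⟩
      refine ⟨φ t y, ?_⟩
      rw [map_mul, Module.End.mul_apply]
      exact hcommφ t₀ t y
    have hrk : Module.finrank ℂ (LinearMap.range (φ (t * t₀))) = Module.finrank ℂ W := by
      apply le_antisymm (Submodule.finrank_mono hle)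
      rw [hn₀]
      exact hmin _ htt₀
    have hkerle : LinearMap.ker (φ t₀) ≤ LinearMap.ker (φ (t * t₀)) := by
      intro y hy
      rw [LinearMap.mem_ker] at hy ⊢
      rw [map_mul, Module.End.mul_apply, hy, map_zero]
    have hkerrk : Module.finrank ℂ (LinearMap.ker (φ (t * t₀))) ≤
        Module.finrank ℂ (LinearMap.ker (φ t₀)) := by
      have h1 := LinearMap.finrank_range_add_finrank_ker (φ (t * t₀))
      have h2 := LinearMap.finrank_range_add_finrank_ker (φ t₀)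
      have h3 : Module.finrank ℂ (LinearMap.range (φ (t * t₀))) =
          Module.finrank ℂ (LinearMap.range (φ t₀)) := hrk
      omega
    have hkereq : LinearMap.ker (φ t₀) = LinearMap.ker (φ (t * t₀)) :=
      Submodule.eq_of_le_of_finrank_le hkerle hkerrk
    obtain ⟨u, hu⟩ := hfW
    have hu' : u ∈ LinearMap.ker (φ (t * t₀)) := by
      rw [LinearMap.mem_ker, map_mul, Module.End.mul_apply, hu, hθ₀, ht, zero_smul]
    rw [← hkereq, LinearMap.mem_ker] at hu'
    exact hf0 (hu ▸ hu')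
  -- integrality
  have hLfin : Module.Finite ℤ L := Module.Finite.iff_fg.mpr hLfg
  let ρ : A →+* Module.End ℤ L :=
    { toFun := fun t => ((φ t).restrictScalars ℤ).restrict (hLstab t)
      map_one' := by
        ext x
        simp
      map_mul' := fun s t => by
        ext x
        show φ (s * t) (x : V) = φ s (φ t (x : V))
        rw [map_mul]
        rfl
      map_zero' := by
        ext x
        simp
      map_add' := fun s t => by
        ext x
        show φ (s + t) (x : V) = φ s (x : V) + φ t (x : V)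
        rw [map_add]
        rfl }
  have hρ : Function.Injective ρ := by
    intro s t hst
    apply hφ
    apply LinearMap.ext_on hLspan
    intro x hx
    have h1 := congrArg (fun g : Module.End ℤ L => ((g ⟨x, hx⟩ : L) : V)) hst
    exact h1
  have hint : ∀ t : A, IsIntegral ℤ (θ₀ t) := by
    intro t
    obtain ⟨P, hPm, hP⟩ := Algebra.IsIntegral.isIntegral (R := ℤ) (ρ t)
    have h1 : Polynomial.eval₂ (Int.castRingHom A) t P = 0 := by
      apply hρ
      rw [map_zero, Polynomial.hom_eval₂]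
      rw [← hP]
      congr 1
      exact RingHom.ext_int _ _
    refine ⟨P, hPm, ?_⟩
    have h2 := congrArg θ₀ h1
    rw [map_zero, Polynomial.hom_eval₂] at h2
    rw [← h2]
    congr 1
    exact RingHom.ext_int _ _
  let θ : A →+* integralClosure ℤ ℂ := θ₀.codRestrict (integralClosure ℤ ℂ) hint
  have hθ : ∀ t : A, ((θ t : integralClosure ℤ ℂ) : ℂ) = θ₀ t := fun t => rfl
  let _ : Algebra A (integralClosure ℤ ℂ) := θ.toAlgebra
  have hAint : Algebra.IsIntegral A (integralClosure ℤ ℂ) := by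
    refine ⟨fun x => ?_⟩
    obtain ⟨P, hPm, hP⟩ := integralClosure.isIntegral x
    refine ⟨P.map (Int.castRingHom A), hPm.map _, ?_⟩
    rw [Polynomial.eval₂_map, ← hP]
    congr 1
    exact RingHom.ext_int _ _
  have hkerθ : RingHom.ker (algebraMap A (integralClosure ℤ ℂ)) ≤ 𝔪 := by
    intro t ht
    rw [RingHom.mem_ker] at ht
    apply hker
    have h1 : θ t = 0 := ht
    rw [← hθ, h1]
    rfl
  obtain ⟨Q, hQ, hQ𝔪⟩ := Ideal.exists_ideal_over_maximal_of_isIntegral 𝔪 hkerθ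
  refine ⟨f, θ, Q, hf0, fun t => ?_, hQ, fun t ht => ?_⟩
  · rw [hθ]
    exact hθ₀ t
  · have h1 : t ∈ Ideal.comap (algebraMap A (integralClosure ℤ ℂ)) Q := hQ𝔪 ▸ hI𝔪 ht
    exact h1


open scoped IsMulCommutative in
theorem deligne_serre_lift
    {V : Type*} [AddCommGroup V] [Module ℂ V] {ι : Type*}
    (g : ι → Module.End ℂ V) (hcomm : ∀ i j, g i * g j = g j * g i)
    (L : Submodule ℤ V) (hLfg : L.FG) (hLspan : Submodule.span ℂ (L : Set V) = ⊤)
    (hLstab : ∀ i, ∀ x ∈ L, g i x ∈ L)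
    (p : ℕ) (f₀ : V) (hf₀L : f₀ ∈ L) (hf₀ : ∀ x ∈ L, f₀ ≠ (p : ℂ) • x)
    (a : ι → ℤ)
    (ha : ∀ i, ∃ x ∈ L, g i f₀ - (a i : ℂ) • f₀ = (p : ℂ) • x) :
    ∃ (f : V) (𝔪' : Ideal (integralClosure ℤ ℂ)) (c : ι → integralClosure ℤ ℂ),
      f ≠ 0 ∧ 𝔪'.IsMaximal ∧ ((p : ℕ) : integralClosure ℤ ℂ) ∈ 𝔪' ∧
      ∀ i, g i f = ((c i : integralClosure ℤ ℂ) : ℂ) • f ∧
        c i - (a i : integralClosure ℤ ℂ) ∈ 𝔪' := by
  classical
  have hcomm' : ∀ s ∈ Set.range g, ∀ t ∈ Set.range g, s * t = t * s := by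
    rintro _ ⟨i, rfl⟩ _ ⟨j, rfl⟩
    exact hcomm i j
  have hmc : IsMulCommutative (Algebra.adjoin ℤ (Set.range g)) :=
    Algebra.isMulCommutative_adjoin ℤ hcomm'
  let instA : CommRing (Algebra.adjoin ℤ (Set.range g)) := inferInstance
  let φ : Algebra.adjoin ℤ (Set.range g) →+* Module.End ℂ V :=
    (Algebra.adjoin ℤ (Set.range g)).val.toRingHom
  have hφ : Function.Injective φ := Subtype.val_injective
  have hφval : ∀ t : Algebra.adjoin ℤ (Set.range g), φ t = (t : Module.End ℂ V) := fun _ => rfl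
  have hstabA : ∀ (t : Algebra.adjoin ℤ (Set.range g)) (x : V), x ∈ L → φ t x ∈ L := by
    rintro ⟨t, ht⟩ x hx
    show t x ∈ L
    induction ht using Algebra.adjoin_induction generalizing x with
    | mem t ht =>
      obtain ⟨i, rfl⟩ := ht
      exact hLstab i x hx
    | algebraMap n =>
      have h1 : (algebraMap ℤ (Module.End ℂ V) n) x = n • x := by
        rw [Algebra.algebraMap_eq_smul_one, LinearMap.smul_apply, Module.End.one_apply]
      rw [h1]
      exact L.smul_mem n hx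
    | add s t _ _ hs ht =>
      rw [LinearMap.add_apply]
      exact L.add_mem (hs x hx) (ht x hx)
    | mul s t _ _ hs ht =>
      rw [Module.End.mul_apply]
      exact hs _ (ht x hx)
  let I : Ideal (Algebra.adjoin ℤ (Set.range g)) :=
    { carrier := {t | ∃ x ∈ L, φ t f₀ = (p : ℂ) • x}
      add_mem' := by
        rintro s t ⟨x, hx, hsx⟩ ⟨y, hy, hty⟩
        refine ⟨x + y, L.add_mem hx hy, ?_⟩
        rw [map_add, LinearMap.add_apply, hsx, hty, smul_add]
      zero_mem' := ⟨0, L.zero_mem, by rw [map_zero, LinearMap.zero_apply, smul_zero]⟩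
      smul_mem' := by
        rintro s t ⟨x, hx, htx⟩
        refine ⟨φ s x, hstabA s x hx, ?_⟩
        rw [smul_eq_mul, map_mul, Module.End.mul_apply, htx, map_smul] }
  have hImem : ∀ t : Algebra.adjoin ℤ (Set.range g), t ∈ I ↔ ∃ x ∈ L, φ t f₀ = (p : ℂ) • x :=
    fun _ => Iff.rfl
  have hI : I ≠ ⊤ := by
    intro h
    have h1 : (1 : Algebra.adjoin ℤ (Set.range g)) ∈ I := h ▸ Submodule.mem_top
    obtain ⟨x, hx, h2⟩ := (hImem 1).mp h1
    rw [map_one, Module.End.one_apply] at h2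
    exact hf₀ x hx h2
  obtain ⟨f, θ, 𝔪', hf0, hfθ, h𝔪', hIθ⟩ := abstract_lift φ hφ L hLfg hLspan hstabA I hI
  have hpI : ((p : ℕ) : Algebra.adjoin ℤ (Set.range g)) ∈ I := by
    rw [hImem]
    refine ⟨f₀, hf₀L, ?_⟩
    rw [map_natCast, Module.End.natCast_apply, Nat.cast_smul_eq_nsmul]
  have hgI : ∀ i, (⟨g i, Algebra.subset_adjoin ⟨i, rfl⟩⟩ - ((a i : ℤ) :
      Algebra.adjoin ℤ (Set.range g))) ∈ I := by
    intro i
    rw [hImem]
    obtain ⟨x, hx, h1⟩ := ha i
    refine ⟨x, hx, ?_⟩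
    rw [map_sub, LinearMap.sub_apply, map_intCast, ← h1]
    congr 1
    rw [Module.End.intCast_apply, Int.cast_smul_eq_zsmul]
  refine ⟨f, 𝔪', fun i => θ ⟨g i, Algebra.subset_adjoin ⟨i, rfl⟩⟩, hf0, h𝔪', ?_, fun i => ⟨?_, ?_⟩⟩
  · have h1 := hIθ _ hpI
    rwa [map_natCast] at h1
  · exact hfθ ⟨g i, Algebra.subset_adjoin ⟨i, rfl⟩⟩
  · have h1 := hIθ _ (hgI i)
    rwa [map_sub, map_intCast] at h1

end Fermat.Agent.S49.H79
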