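import Mathlib

set_option autoImplicit false

namespace Fermat.Agent.S49.H79

theorem recur_zero {R : Type*} [CommRing R] (ε lam a : ℕ → R) (h1 : a 1 = 0)
    (hrec : ∀ p : ℕ, p.Prime → ∀ n : ℕ,
      a (n * p) + (if p ∣ n then ε p * a (n / p) else 0) = lam p * a n) :
    ∀ n : ℕ, 0 < n → a n = 0 := by
  intro n
  induction n using Nat.strong_induction_on with
  | _ n ih =>
    intro hn
    rcases Nat.lt_or_ge 1 n with h | h
    · obtain ⟨p, hp, hpn⟩ := Nat.exists_prime_and_dvd (by omega : n ≠ 1)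
      obtain ⟨m, rfl⟩ := hpn
      have hm : 0 < m := Nat.pos_of_ne_zero (by rintro rfl; simp at hn)
      have hmlt : m < p * m := by nlinarith [hp.two_le]
      have h2 := hrec p hp m
      rw [ih m hmlt hm, mul_zero] at h2
      have h3 : (if p ∣ m then ε p * a (m / p) else 0) = 0 := by
        split_ifs with hd
        · have h4 : 0 < m / p := Nat.div_pos (Nat.le_of_dvd hm hd) hp.pos
          have h5 : m / p < p * m := lt_of_le_of_lt (Nat.div_le_self _ _) hmlt
          rw [ih (m / p) h5 h4, mul_zero]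
        · rfl
      rw [h3, add_zero, mul_comm] at h2
      exact h2
    · have h2 : n = 1 := by omega
      rw [h2]
      exact h1

theorem recur_pow {R : Type*} [CommRing R] (ε lam a : ℕ → R)
    (hrec : ∀ p : ℕ, p.Prime → ∀ n : ℕ,
      a (n * p) + (if p ∣ n then ε p * a (n / p) else 0) = lam p * a n)
    (p : ℕ) (hp : p.Prime) (n r : ℕ) :
    a (n * p ^ (r + 2)) = lam p * a (n * p ^ (r + 1)) - ε p * a (n * p ^ r) := by
  have h := hrec p hp (n * p ^ (r + 1))
  have hd : p ∣ n * p ^ (r + 1) := Dvd.dvd.mul_left (dvd_pow_self p (Nat.succ_ne_zero r)) n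
  have hdiv : n * p ^ (r + 1) / p = n * p ^ r := by
    rw [pow_succ, ← mul_assoc, Nat.mul_div_cancel _ hp.pos]
  rw [if_pos hd, hdiv] at h
  have h2 : n * p ^ (r + 2) = n * p ^ (r + 1) * p := by ring
  rw [h2]
  linear_combination h

theorem recur_mul {R : Type*} [CommRing R] (ε a : ℕ → R) (h1 : a 1 = 1)
    (hrec : ∀ p : ℕ, p.Prime → ∀ n : ℕ,
      a (n * p) + (if p ∣ n then ε p * a (n / p) else 0) = a p * a n) :
    (∀ m n : ℕ, m.Coprime n → a (m * n) = a m * a n) ∧
    (∀ p r : ℕ, p.Prime → a (p ^ (r + 2)) = a p * a (p ^ (r + 1)) - ε p * a (p ^ r)) := by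
  have hpow : ∀ p r : ℕ, p.Prime →
      a (p ^ (r + 2)) = a p * a (p ^ (r + 1)) - ε p * a (p ^ r) := by
    intro p r hp
    have h := recur_pow ε a a hrec p hp 1 r
    simpa using h
  have hstep : ∀ p : ℕ, p.Prime → ∀ n : ℕ, ¬ p ∣ n → ∀ r : ℕ,
      a (n * p ^ r) = a n * a (p ^ r) ∧ a (n * p ^ (r + 1)) = a n * a (p ^ (r + 1)) := by
    intro p hp n hpn r
    induction r with
    | zero =>
      refine ⟨by simp [h1], ?_⟩
      have h := hrec p hp n
      rw [if_neg hpn, add_zero] at h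
      rw [zero_add, pow_one, h, mul_comm]
    | succ r ih =>
      refine ⟨ih.2, ?_⟩
      rw [recur_pow ε a a hrec p hp n r, ih.1, ih.2, hpow p r hp]
      ring
  refine ⟨?_, hpow⟩
  intro m
  induction m using Nat.recOnPosPrimePosCoprime with
  | prime_pow p k hp hk =>
    intro n hcop
    have hpn : ¬ p ∣ n := by
      rw [Nat.coprime_pow_left_iff hk] at hcop
      exact (Nat.Prime.coprime_iff_not_dvd hp).mp hcop
    rw [mul_comm (p ^ k) n, (hstep p hp n hpn k).1, mul_comm]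
  | zero =>
    intro n hcop
    rw [Nat.coprime_zero_left] at hcop
    rw [hcop, h1, mul_one, mul_one]
  | one =>
    intro n _
    rw [one_mul, h1, one_mul]
  | coprime x y hx hy hxy ihx ihy =>
    intro n hcop
    have hxn : x.Coprime n := Nat.Coprime.coprime_mul_right hcop
    have hyn : y.Coprime n := Nat.Coprime.coprime_mul_left hcop
    rw [mul_assoc, ihx (y * n) (Nat.Coprime.mul_right hxy hxn), ihy n hyn, ihx y hxy, mul_assoc]

theorem coeff_eq_zero_of_one (N : ℕ) (lam a : ℕ → ℂ) (h1 : a 1 = 0)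
    (hT : ∀ p : ℕ, p.Prime → ¬ p ∣ N → ∀ n : ℕ,
      a (n * p) + (if p ∣ n then (p : ℂ) * a (n / p) else 0) = lam p * a n)
    (hU : ∀ p : ℕ, p.Prime → p ∣ N → ∀ n : ℕ, a (n * p) = lam p * a n) :
    ∀ n : ℕ, 0 < n → a n = 0 := by
  apply recur_zero (fun p => if p ∣ N then 0 else (p : ℂ)) lam a h1
  intro p hp n
  by_cases hpN : p ∣ N
  · simp only [if_pos hpN, zero_mul, ite_self, add_zero]
    exact hU p hp hpN n
  · simp only [if_neg hpN]
    exact hT p hp hpN n

theorem normalizedEigenform_fields (N : ℕ) (a : ℕ → ℂ) (h1 : a 1 = 1)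
    (hT : ∀ p : ℕ, p.Prime → ¬ p ∣ N → ∀ n : ℕ,
      a (n * p) + (if p ∣ n then (p : ℂ) * a (n / p) else 0) = a p * a n)
    (hU : ∀ p : ℕ, p.Prime → p ∣ N → ∀ n : ℕ, a (n * p) = a p * a n) :
    (∀ m n : ℕ, m.Coprime n → a (m * n) = a m * a n) ∧
    (∀ p r : ℕ, p.Prime → ¬ p ∣ N →
      a (p ^ (r + 2)) = a p * a (p ^ (r + 1)) - p * a (p ^ r)) ∧
    (∀ p r : ℕ, p.Prime → p ∣ N → a (p ^ (r + 2)) = a p * a (p ^ (r + 1))) := by
  have hrec : ∀ p : ℕ, p.Prime → ∀ n : ℕ,
      a (n * p) + (if p ∣ n then (fun p : ℕ => if p ∣ N then 0 else (p : ℂ)) p * a (n / p) else 0)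
        = a p * a n := by
    intro p hp n
    by_cases hpN : p ∣ N
    · simp only [if_pos hpN, zero_mul, ite_self, add_zero]
      exact hU p hp hpN n
    · simp only [if_neg hpN]
      exact hT p hp hpN n
  obtain ⟨hmul, hpow⟩ := recur_mul (fun p => if p ∣ N then 0 else (p : ℂ)) a h1 hrec
  refine ⟨hmul, fun p r hp hpN => ?_, fun p r hp hpN => ?_⟩
  · have h := hpow p r hp
    simp only [if_neg hpN] at h
    exact h
  · have h := hpow p r hp
    simp only [if_pos hpN, zero_mul, sub_zero] at h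
    exact h

end Fermat.Agent.S49.H79
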