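import Mathlib
import Fermat.Agent.S49.QCoeff_h78
import Fermat.Prelude.Def_FormalHecke_Eigensystem
import Fermat.Prelude.Def_ModularForm_EisensteinChiNegThree

set_option autoImplicit false

namespace Fermat.Agent.S49.H78

open CuspForm CongruenceSubgroup ModularFormClass UpperHalfPlane EisensteinWeightOne

noncomputable section

/-- `e1Chi3` is `1` modulo `3`. -/
theorem e1Chi3In_int_eq :
    e1Chi3In ℤ = 1 + PowerSeries.C (3 : ℤ) *
      PowerSeries.mk (fun n => if n = 0 then 0 else 2 * sigmaChi n) := by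
  ext n
  simp only [e1Chi3In, e1Chi3, PowerSeries.coeff_map, PowerSeries.coeff_mk, map_add,
    PowerSeries.coeff_one, PowerSeries.coeff_C_mul]
  split_ifs with h
  · simp
  · simp only [eq_intCast, Int.cast_id]
    ring

theorem bridgeProduct_coeff_mod3 (a : ℕ → ℤ) (n : ℕ) :
    (3 : ℤ) ∣ (bridgeProduct a).coeff n - a n := by
  unfold bridgeProduct
  rw [e1Chi3In_int_eq, mul_add, mul_one, map_add, PowerSeries.coeff_mk, mul_left_comm,
    PowerSeries.coeff_C_mul, add_sub_cancel_left]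
  exact dvd_mul_right _ _

theorem chiNegThree_zmod (n : ℕ) : ((chiNegThree n : ℤ) : ZMod 3) = (n : ZMod 3) := by
  have h3 : (n : ZMod 3) = ((n % 3 : ℕ) : ZMod 3) := (ZMod.natCast_mod n 3).symm
  rw [h3]
  unfold chiNegThree
  have hlt : n % 3 < 3 := Nat.mod_lt _ (by norm_num)
  interval_cases n % 3 <;> simp
  decide

variable {N : ℕ}

/-- All q-coefficients are integers divisible by `3`. -/
def Div3 (g : CuspForm (Gamma0 N) 2) : Prop :=
  ∀ n : ℕ, ∃ m : ℤ, qCoeff ⇑g n = 3 * (m : ℂ)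

theorem Div3.add {g₁ g₂ : CuspForm (Gamma0 N) 2} (h₁ : Div3 g₁) (h₂ : Div3 g₂) :
    Div3 (g₁ + g₂) := fun n => by
  obtain ⟨m₁, hm₁⟩ := h₁ n
  obtain ⟨m₂, hm₂⟩ := h₂ n
  exact ⟨m₁ + m₂, by rw [qCoeff_add, hm₁, hm₂]; push_cast; ring⟩

theorem div3_zero : Div3 (0 : CuspForm (Gamma0 N) 2) := fun n =>
  ⟨0, by rw [← coeffLin_apply, map_zero]; simp⟩

theorem Div3.exists_eq {g : CuspForm (Gamma0 N) 2} (h : Div3 g) :
    ∃ g' ∈ CuspForm.intLattice N 2, g = (3 : ℂ) • g' := by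
  refine ⟨(3 : ℂ)⁻¹ • g, ?_, ?_⟩
  · rw [mem_intLattice_iff]
    intro n
    obtain ⟨m, hm⟩ := h n
    exact ⟨m, by rw [qCoeff_smul, hm]; field_simp⟩
  · rw [smul_smul, mul_inv_cancel₀ (by norm_num : (3 : ℂ) ≠ 0), one_smul]

theorem div3_smul_of_mem {g' : CuspForm (Gamma0 N) 2} (h : g' ∈ CuspForm.intLattice N 2) :
    Div3 ((3 : ℂ) • g') := fun n => by
  obtain ⟨m, hm⟩ := (mem_intLattice_iff g').mp h n
  exact ⟨m, by rw [qCoeff_smul, hm]⟩

theorem Div3.apply_heckeAlgebra [NeZero N] {t : Module.End ℂ (CuspForm (Gamma0 N) 2)}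
    (ht : t ∈ CuspForm.heckeAlgebra N 2 ∅) {g : CuspForm (Gamma0 N) 2} (h : Div3 g) :
    Div3 (t g) := by
  obtain ⟨g', hg', rfl⟩ := h.exists_eq
  rw [map_smul]
  exact div3_smul_of_mem (CuspForm.mem_intLattice_of_mem_heckeAlgebra (by norm_num) ht hg')

/-- The ideal of Hecke operators sending `f0` into `3 L`. -/
def idealM [NeZero N] (f0 : CuspForm (Gamma0 N) 2) : Ideal (CuspForm.heckeAlgebra N 2 ∅) where
  carrier := {T | Div3 (T.1 f0)}
  add_mem' {x y} hx hy := by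
    show Div3 ((x + y).1 f0)
    have : (x + y).1 f0 = x.1 f0 + y.1 f0 := rfl
    rw [this]
    exact Div3.add hx hy
  zero_mem' := by
    show Div3 ((0 : CuspForm.heckeAlgebra N 2 ∅).1 f0)
    have : (0 : CuspForm.heckeAlgebra N 2 ∅).1 f0 = 0 := rfl
    rw [this]
    exact div3_zero
  smul_mem' c x hx := by
    show Div3 ((c * x).1 f0)
    have : (c * x).1 f0 = c.1 (x.1 f0) := rfl
    rw [this]
    exact Div3.apply_heckeAlgebra c.2 hx

theorem mem_idealM [NeZero N] (f0 : CuspForm (Gamma0 N) 2) (T : CuspForm.heckeAlgebra N 2 ∅) :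
    T ∈ idealM f0 ↔ Div3 (T.1 f0) := Iff.rfl

theorem algebraMap_apply_form [NeZero N] (c : ℤ) (g : CuspForm (Gamma0 N) 2) :
    (algebraMap ℤ (CuspForm.heckeAlgebra N 2 ∅) c).1 g = (c : ℂ) • g := by
  have h : ((algebraMap ℤ (CuspForm.heckeAlgebra N 2 ∅) c).1 :
      Module.End ℂ (CuspForm (Gamma0 N) 2)) = (c : ℂ) • 1 := by
    rw [Subalgebra.coe_algebraMap, Algebra.algebraMap_eq_smul_one, Int.cast_smul_eq_zsmul]
  rw [h, LinearMap.smul_apply, Module.End.one_apply]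

theorem sub_algebraMap_apply_form [NeZero N] (T : CuspForm.heckeAlgebra N 2 ∅) (c : ℤ)
    (g : CuspForm (Gamma0 N) 2) :
    (T - algebraMap ℤ (CuspForm.heckeAlgebra N 2 ∅) c).1 g = T.1 g - (c : ℂ) • g := by
  have h : (T - algebraMap ℤ (CuspForm.heckeAlgebra N 2 ∅) c).1 g =
      T.1 g - (algebraMap ℤ (CuspForm.heckeAlgebra N 2 ∅) c).1 g := rfl
  rw [h, algebraMap_apply_form]

section Eigen

variable [NeZero N] {f0 : CuspForm (Gamma0 N) 2} {af a : ℕ → ℤ}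

theorem cast_eq_of_cong (hcong : ∀ n, (3 : ℤ) ∣ af n - a n) (n : ℕ) :
    ((af n : ℤ) : ZMod 3) = ((a n : ℤ) : ZMod 3) := by
  have h := (ZMod.intCast_zmod_eq_zero_iff_dvd (af n - a n) 3).mpr (by exact_mod_cast hcong n)
  rw [Int.cast_sub] at h
  exact sub_eq_zero.mp h

theorem T_sub_mem (haf : ∀ n, (af n : ℂ) = qCoeff ⇑f0 n) (hcong : ∀ n, (3 : ℤ) ∣ af n - a n)
    (heig : FormalHecke.IsEigensystem
      (fun ℓ => if ℓ ∣ N then 0 else ((chiNegThree ℓ : ℤ) : ℤ)) a)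
    {ℓ : ℕ} (hℓ : ℓ.Prime) (hℓN : ¬ ℓ ∣ N) :
    CuspForm.heckeAlgebra.T hℓ hℓN (Set.notMem_empty ℓ) -
      algebraMap ℤ (CuspForm.heckeAlgebra N 2 ∅) (a ℓ) ∈ idealM f0 := by
  rw [mem_idealM]
  intro n
  rw [sub_algebraMap_apply_form, qCoeff_sub, qCoeff_smul, CuspForm.heckeAlgebra.coe_T,
    qCoeff_heckeTLin, ← haf, ← haf]
  have e := cast_eq_of_cong hcong
  have h2 := heig.2 ℓ hℓ n
  simp only [if_neg hℓN] at h2
  have h3 := congrArg (Int.cast : ℤ → ZMod 3) h2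
  by_cases hn : ℓ ∣ n
  · rw [if_pos hn, ← haf]
    simp only [if_pos hn] at h3
    push_cast at h3
    rw [chiNegThree_zmod] at h3
    have h4 : (((af (n * ℓ) + (ℓ : ℤ) * af (n / ℓ) - a ℓ * af n : ℤ)) : ZMod 3) = 0 := by
      push_cast
      rw [e, e, e, mul_comm n ℓ, h3]
      ring
    obtain ⟨m, hm⟩ := (ZMod.intCast_zmod_eq_zero_iff_dvd _ 3).mp h4
    refine ⟨m, ?_⟩
    have h5 := congrArg (Int.cast : ℤ → ℂ) hm
    push_cast at h5
    exact h5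
  · rw [if_neg hn, ← haf]
    simp only [if_neg hn] at h3
    push_cast at h3
    have h4 : (((af (n * ℓ) - a ℓ * af n : ℤ)) : ZMod 3) = 0 := by
      push_cast
      rw [e, e, mul_comm n ℓ]
      rw [mul_zero, add_zero] at h3
      rw [h3]
      ring
    obtain ⟨m, hm⟩ := (ZMod.intCast_zmod_eq_zero_iff_dvd _ 3).mp h4
    refine ⟨m, ?_⟩
    have h5 := congrArg (Int.cast : ℤ → ℂ) hm
    push_cast at h5
    rw [add_zero]
    exact h5

theorem U_sub_mem (haf : ∀ n, (af n : ℂ) = qCoeff ⇑f0 n) (hcong : ∀ n, (3 : ℤ) ∣ af n - a n)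
    (heig : FormalHecke.IsEigensystem
      (fun ℓ => if ℓ ∣ N then 0 else ((chiNegThree ℓ : ℤ) : ℤ)) a)
    {ℓ : ℕ} (hℓ : ℓ.Prime) (hℓN : ℓ ∣ N) :
    CuspForm.heckeAlgebra.U hℓ hℓN (Set.notMem_empty ℓ) -
      algebraMap ℤ (CuspForm.heckeAlgebra N 2 ∅) (a ℓ) ∈ idealM f0 := by
  rw [mem_idealM]
  intro n
  rw [sub_algebraMap_apply_form, qCoeff_sub, qCoeff_smul, CuspForm.heckeAlgebra.coe_U,
    qCoeff_heckeULin hℓ, ← haf, ← haf]
  have e := cast_eq_of_cong hcong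
  have h2 := heig.2 ℓ hℓ n
  simp only [if_pos hℓN, zero_mul, add_zero] at h2
  have h3 := congrArg (Int.cast : ℤ → ZMod 3) h2
  push_cast at h3
  have h4 : (((af (n * ℓ) - a ℓ * af n : ℤ)) : ZMod 3) = 0 := by
    push_cast
    rw [e, e, mul_comm n ℓ, h3]
    ring
  obtain ⟨m, hm⟩ := (ZMod.intCast_zmod_eq_zero_iff_dvd _ 3).mp h4
  refine ⟨m, ?_⟩
  have h5 := congrArg (Int.cast : ℤ → ℂ) hm
  push_cast at h5
  exact h5

theorem exists_int_sub_mem (haf : ∀ n, (af n : ℂ) = qCoeff ⇑f0 n)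
    (hcong : ∀ n, (3 : ℤ) ∣ af n - a n)
    (heig : FormalHecke.IsEigensystem
      (fun ℓ => if ℓ ∣ N then 0 else ((chiNegThree ℓ : ℤ) : ℤ)) a)
    (T : CuspForm.heckeAlgebra N 2 ∅) :
    ∃ c : ℤ, T - algebraMap ℤ (CuspForm.heckeAlgebra N 2 ∅) c ∈ idealM f0 := by
  obtain ⟨t, ht⟩ := T
  refine Algebra.adjoin_induction
    (p := fun t ht => ∃ c : ℤ, (⟨t, ht⟩ : CuspForm.heckeAlgebra N 2 ∅) -
      algebraMap ℤ (CuspForm.heckeAlgebra N 2 ∅) c ∈ idealM f0) ?_ ?_ ?_ ?_ ht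
  · rintro x (⟨ℓ, hℓ, hℓN, -, rfl⟩ | ⟨q, hqN, hq, -, rfl⟩)
    · exact ⟨a ℓ, T_sub_mem haf hcong heig hℓ hℓN⟩
    · exact ⟨a q, U_sub_mem haf hcong heig hq hqN⟩
  · intro r
    refine ⟨r, ?_⟩
    have : (⟨algebraMap ℤ _ r, Subalgebra.algebraMap_mem _ r⟩ : CuspForm.heckeAlgebra N 2 ∅) -
        algebraMap ℤ (CuspForm.heckeAlgebra N 2 ∅) r = 0 := sub_self _
    rw [this]
    exact (idealM f0).zero_mem
  · rintro x y hx hy ⟨cx, hcx⟩ ⟨cy, hcy⟩
    refine ⟨cx + cy, ?_⟩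
    have : (⟨x + y, add_mem hx hy⟩ : CuspForm.heckeAlgebra N 2 ∅) -
        algebraMap ℤ (CuspForm.heckeAlgebra N 2 ∅) (cx + cy) =
        ((⟨x, hx⟩ : CuspForm.heckeAlgebra N 2 ∅) - algebraMap ℤ _ cx) +
        ((⟨y, hy⟩ : CuspForm.heckeAlgebra N 2 ∅) - algebraMap ℤ _ cy) := by
      rw [map_add]
      have : (⟨x + y, add_mem hx hy⟩ : CuspForm.heckeAlgebra N 2 ∅) = ⟨x, hx⟩ + ⟨y, hy⟩ := rfl
      rw [this]
      ring
    rw [this]
    exact (idealM f0).add_mem hcx hcy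
  · rintro x y hx hy ⟨cx, hcx⟩ ⟨cy, hcy⟩
    refine ⟨cx * cy, ?_⟩
    have : (⟨x * y, mul_mem hx hy⟩ : CuspForm.heckeAlgebra N 2 ∅) -
        algebraMap ℤ (CuspForm.heckeAlgebra N 2 ∅) (cx * cy) =
        ((⟨x, hx⟩ : CuspForm.heckeAlgebra N 2 ∅) - algebraMap ℤ _ cx) * ⟨y, hy⟩ +
        algebraMap ℤ _ cx * ((⟨y, hy⟩ : CuspForm.heckeAlgebra N 2 ∅) - algebraMap ℤ _ cy) := by
      rw [map_mul]
      have : (⟨x * y, mul_mem hx hy⟩ : CuspForm.heckeAlgebra N 2 ∅) = ⟨x, hx⟩ * ⟨y, hy⟩ := rfl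
      rw [this]
      ring
    rw [this]
    exact (idealM f0).add_mem ((idealM f0).mul_mem_right _ hcx) ((idealM f0).mul_mem_left _ hcy)

theorem algebraMap_three_mul_mem (haf : ∀ n, (af n : ℂ) = qCoeff ⇑f0 n) (d : ℤ) :
    algebraMap ℤ (CuspForm.heckeAlgebra N 2 ∅) (3 * d) ∈ idealM f0 := by
  rw [mem_idealM]
  intro n
  rw [algebraMap_apply_form, qCoeff_smul, ← haf]
  exact ⟨d * af n, by push_cast; ring⟩

theorem one_notMem (haf : ∀ n, (af n : ℂ) = qCoeff ⇑f0 n) (hcong : ∀ n, (3 : ℤ) ∣ af n - a n)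
    (heig : FormalHecke.IsEigensystem
      (fun ℓ => if ℓ ∣ N then 0 else ((chiNegThree ℓ : ℤ) : ℤ)) a) :
    (1 : CuspForm.heckeAlgebra N 2 ∅) ∉ idealM f0 := by
  rw [mem_idealM]
  intro h
  obtain ⟨m, hm⟩ := h 1
  have h1 : (1 : CuspForm.heckeAlgebra N 2 ∅).1 f0 = f0 := rfl
  rw [h1, ← haf] at hm
  have h2 : af 1 = 3 * m := by exact_mod_cast hm
  have h3 := hcong 1
  rw [heig.1, h2] at h3
  omega

theorem idealM_isMaximal (haf : ∀ n, (af n : ℂ) = qCoeff ⇑f0 n)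
    (hcong : ∀ n, (3 : ℤ) ∣ af n - a n)
    (heig : FormalHecke.IsEigensystem
      (fun ℓ => if ℓ ∣ N then 0 else ((chiNegThree ℓ : ℤ) : ℤ)) a) :
    (idealM f0).IsMaximal := by
  rw [Ideal.isMaximal_iff]
  refine ⟨one_notMem haf hcong heig, fun J x hJ hx hxJ => ?_⟩
  obtain ⟨c, hc⟩ := exists_int_sub_mem haf hcong heig x
  have hc3 : ¬ (3 : ℤ) ∣ c := by
    rintro ⟨d, rfl⟩
    apply hx
    have := (idealM f0).add_mem hc (algebraMap_three_mul_mem haf d)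
    rwa [sub_add_cancel] at this
  have hz : ((c : ℤ) : ZMod 3) ≠ 0 := fun h =>
    hc3 (by exact_mod_cast (ZMod.intCast_zmod_eq_zero_iff_dvd c 3).mp h)
  have hsq : ∀ z : ZMod 3, z ≠ 0 → z * z - 1 = 0 := by decide
  have h4 : (((c * c - 1 : ℤ)) : ZMod 3) = 0 := by
    push_cast
    exact hsq _ hz
  obtain ⟨d, hd⟩ := (ZMod.intCast_zmod_eq_zero_iff_dvd _ 3).mp h4
  have h5 : algebraMap ℤ (CuspForm.heckeAlgebra N 2 ∅) (c * c - 1) ∈ idealM f0 := by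
    have : c * c - 1 = 3 * d := by exact_mod_cast hd
    rw [this]
    exact algebraMap_three_mul_mem haf d
  have h6 : (1 : CuspForm.heckeAlgebra N 2 ∅) =
      algebraMap ℤ _ c * x - algebraMap ℤ _ c * (x - algebraMap ℤ _ c) -
        algebraMap ℤ _ (c * c - 1) := by
    rw [map_sub, map_mul, map_one]
    ring
  rw [h6]
  exact J.sub_mem (J.sub_mem (J.mul_mem_left _ hxJ) (hJ ((idealM f0).mul_mem_left _ hc))) (hJ h5)

theorem three_mem (haf : ∀ n, (af n : ℂ) = qCoeff ⇑f0 n) :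
    (3 : CuspForm.heckeAlgebra N 2 ∅) ∈ idealM f0 := by
  have h := algebraMap_three_mul_mem (f0 := f0) haf 1
  have h2 : algebraMap ℤ (CuspForm.heckeAlgebra N 2 ∅) (3 * 1) = 3 := by
    rw [mul_one]
    exact map_ofNat _ 3
  rwa [h2] at h

end Eigen

end

end Fermat.Agent.S49.H78
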